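import Mathlib

/-!
# S41, block G (abstract algebra), node G1: successive approximation  (owner: helper188)
-/

set_option autoImplicit false

namespace Fermat.Agent.S41.Abs

/-- the ascending chain `N j = {x | p ^ j • x ∈ range β}`. -/
theorem approx_chain {L L' : Type*} [AddCommGroup L] [AddCommGroup L']
    [Module.Finite ℤ L] (p : ℕ) (β : L' →ₗ[ℤ] L) :
    ∃ m : ℕ, ∀ w : L, (∃ z, β z = p ^ (m + 1) • w) → ∃ z, β z = p ^ m • w := by
  let N : ℕ → Submodule ℤ L := fun j =>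
    (LinearMap.range β).comap ((p ^ j : ℤ) • (LinearMap.id : L →ₗ[ℤ] L))
  have hmem : ∀ j w, w ∈ N j ↔ ∃ z, β z = p ^ j • w := by
    intro j w
    simp only [N, Submodule.mem_comap, LinearMap.smul_apply, LinearMap.id_apply,
      LinearMap.mem_range]
    have : ((p : ℤ) ^ j) • w = p ^ j • w := by
      rw [← Nat.cast_pow, natCast_zsmul]
    rw [this]
  have hmono : Monotone N := by
    apply monotone_nat_of_le_succ
    intro j w hw
    rw [hmem] at hw ⊢
    obtain ⟨z, hz⟩ := hw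
    refine ⟨p • z, ?_⟩
    rw [map_nsmul, hz, smul_smul, pow_succ']
  obtain ⟨m, hm⟩ := monotone_stabilizes_iff_noetherian.mpr
    (inferInstance : IsNoetherian ℤ L) ⟨N, hmono⟩
  refine ⟨m, fun w hw => ?_⟩
  have h1 : w ∈ N (m + 1) := (hmem _ _).2 hw
  have h2 : N m = N (m + 1) := hm (m + 1) (Nat.le_succ m)
  rw [← h2] at h1
  exact (hmem _ _).1 h1

theorem approx_pow {L L' : Type*} [AddCommGroup L] [AddCommGroup L']
    (p : ℕ) (β : L' →ₗ[ℤ] L) (t : L →ₗ[ℤ] L) (t' : L' →ₗ[ℤ] L')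
    (hβt : ∀ y, β (t' y) = t (β y)) (ht : ∀ x, ∃ (z : L') (w : L), t x = β z + p • w)
    (k : ℕ) (x : L) : ∃ (z : L') (w : L), (t ^ k) x = β z + p ^ k • w := by
  induction k with
  | zero => exact ⟨0, x, by simp⟩
  | succ k ih =>
    obtain ⟨z, w, h⟩ := ih
    obtain ⟨z₂, w₂, h₂⟩ := ht w
    refine ⟨t' z + p ^ k • z₂, w₂, ?_⟩
    rw [pow_succ', Module.End.mul_apply, h, map_add, map_nsmul, h₂, map_add, hβt, map_nsmul,
      smul_add, smul_smul, ← pow_succ, add_assoc]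

theorem approx_comm {L L' : Type*} [AddCommGroup L] [AddCommGroup L']
    (β : L' →ₗ[ℤ] L) (t : L →ₗ[ℤ] L) (t' : L' →ₗ[ℤ] L')
    (hβt : ∀ y, β (t' y) = t (β y)) (k : ℕ) (y : L') : β ((t' ^ k) y) = (t ^ k) (β y) := by
  induction k with
  | zero => simp
  | succ k ih =>
    rw [pow_succ', Module.End.mul_apply, hβt, ih, pow_succ', Module.End.mul_apply]

/-- Let `β : L' → L`, `β t' = t β`, `t L ⊆ β L' + p L` and `β y ∈ p L`.  Then for some `k` the element
`t' ^ k y` is congruent modulo `p L'` to an element of `ker β`. -/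
theorem exists_pow_sub_mem_ker {L L' : Type*} [AddCommGroup L] [AddCommGroup L']
    [Module.Finite ℤ L] (p : ℕ) (β : L' →ₗ[ℤ] L) (t : L →ₗ[ℤ] L) (t' : L' →ₗ[ℤ] L')
    (hβt : ∀ y, β (t' y) = t (β y)) (ht : ∀ x, ∃ (z : L') (w : L), t x = β z + p • w)
    (y : L') (x₁ : L) (hy : β y = p • x₁) :
    ∃ (k : ℕ) (z : L'), β ((t' ^ k) y - p • z) = 0 := by
  obtain ⟨k, hk⟩ := approx_chain p β
  obtain ⟨z, w, hzw⟩ := approx_pow p β t t' hβt ht k x₁
  have hc := approx_comm β t t' hβt k y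
  rw [hy, map_nsmul] at hc
  obtain ⟨z₁, hz₁⟩ := hk w ⟨(t' ^ k) y - p • z, by
    rw [map_sub, hc, map_nsmul, hzw, smul_add, smul_smul, ← pow_succ', add_sub_cancel_left]⟩
  refine ⟨k, z + z₁, ?_⟩
  rw [map_sub, hc, map_nsmul, map_add, hz₁, hzw, sub_self]

end Fermat.Agent.S41.Abs
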