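import Mathlib

/-!
# S41, block G (abstract algebra), node G2: duality
-/

set_option autoImplicit false

namespace Fermat.Agent.S41.Abs

theorem Duality_exists_ne_zero (p : ℕ) [Fact p.Prime] {V : Type*} [AddCommGroup V]
    [Module (ZMod p) V] {v : V} (hv : v ≠ 0) : ∃ f : V →+ ZMod p, f v ≠ 0 := by
  have h1 := (Module.forall_dual_apply_eq_zero_iff (ZMod p) v).not.mpr hv
  push Not at h1
  obtain ⟨f, hf⟩ := h1
  exact ⟨f.toAddMonoidHom, hf⟩

theorem Duality_surjective (p : ℕ) [Fact p.Prime] {V : Type*} [AddCommGroup V]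
    [Module (ZMod p) V] [Module.Finite (ZMod p) V] (Ψ : V →+ (V →+ ZMod p))
    (hΨ : Function.Injective Ψ) : Function.Surjective Ψ := by
  let T : (V →+ ZMod p) →+ (V →ₗ[ZMod p] ZMod p) :=
    AddMonoidHom.mk' (fun f => f.toZModLinearMap p) (fun f g => by ext x; rfl)
  have hT : Function.Injective T := by
    intro f g hfg
    ext x
    exact LinearMap.congr_fun hfg x
  let Ψ' : V →ₗ[ZMod p] (V →ₗ[ZMod p] ZMod p) := (T.comp Ψ).toZModLinearMap p
  have hinj : Function.Injective Ψ' := hT.comp hΨ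
  have hsurj : Function.Surjective Ψ' :=
    (LinearMap.injective_iff_surjective_of_finrank_eq_finrank
      (Subspace.dual_finrank_eq (K := ZMod p) (V := V)).symm).mp hinj
  intro f
  obtain ⟨v, hv⟩ := hsurj (T f)
  exact ⟨v, hT hv⟩

theorem Duality_exists_functional {L : Type*} [AddCommGroup L] (p : ℕ) [Fact p.Prime]
    (R : AddSubgroup L) (hR : ∀ x : L, p • x ∈ R) {h : L} (hh : h ∉ R) :
    ∃ l : L →+ ZMod p, (∀ x ∈ R, l x = 0) ∧ l h ≠ 0 := by
  have hP : ∀ x : L ⧸ R, p • x = 0 := by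
    intro x
    induction x using QuotientAddGroup.induction_on with
    | H x =>
      rw [← QuotientAddGroup.mk_nsmul, QuotientAddGroup.eq_zero_iff]
      exact hR x
  let _ : Module (ZMod p) (L ⧸ R) := AddCommGroup.zmodModule hP
  have hne : (QuotientAddGroup.mk h : L ⧸ R) ≠ 0 := by
    rw [Ne, QuotientAddGroup.eq_zero_iff]
    exact hh
  obtain ⟨f, hf⟩ := Duality_exists_ne_zero p hne
  refine ⟨f.comp (QuotientAddGroup.mk' R), ?_, hf⟩
  intro x hx
  have : (QuotientAddGroup.mk x : L ⧸ R) = 0 := (QuotientAddGroup.eq_zero_iff x).mpr hx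
  simp [this]

theorem Duality_exists_repr {L : Type*} [AddCommGroup L] [Module.Finite ℤ L] (p : ℕ)
    [Fact p.Prime] (B : L →ₗ[ℤ] L →ₗ[ℤ] ℤ)
    (hB : ∀ x, (∀ y, (p : ℤ) ∣ B x y) → ∃ x', x = p • x')
    (l : L →+ ZMod p) : ∃ k : L, ∀ x, l x = ((B k x : ℤ) : ZMod p) := by
  classical
  let P : AddSubgroup L := (nsmulAddMonoidHom (α := L) p).range
  have hP : ∀ x : L ⧸ P, p • x = 0 := by
    intro x
    induction x using QuotientAddGroup.induction_on with
    | H x =>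
      rw [← QuotientAddGroup.mk_nsmul, QuotientAddGroup.eq_zero_iff]
      exact ⟨x, rfl⟩
  let iM : Module (ZMod p) (L ⧸ P) := AddCommGroup.zmodModule hP
  have : Module.Finite ℤ (L ⧸ P) :=
    Module.Finite.of_surjective (QuotientAddGroup.mk' P).toIntLinearMap
      (QuotientAddGroup.mk'_surjective P)
  have iF : Module.Finite (ZMod p) (L ⧸ P) :=
    Module.Finite.of_restrictScalars_finite ℤ (ZMod p) (L ⧸ P)
  -- any additive map to `ZMod p` kills `P`
  have hkill : ∀ f : L →+ ZMod p, P ≤ f.ker := by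
    rintro f _ ⟨x, rfl⟩
    rw [AddMonoidHom.mem_ker, nsmulAddMonoidHom_apply, map_nsmul]
    simp
  let desc : (L →+ ZMod p) → ((L ⧸ P) →+ ZMod p) := fun f => QuotientAddGroup.lift P f (hkill f)
  have desc_mk : ∀ (f : L →+ ZMod p) (x : L), desc f (QuotientAddGroup.mk x) = f x := by
    intro f x
    rfl
  let b : L → (L →+ ZMod p) := fun k => (Int.castAddHom (ZMod p)).comp (B k).toAddMonoidHom
  have b_apply : ∀ k x, b k x = ((B k x : ℤ) : ZMod p) := fun k x => rfl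
  let Ψ₀ : L →+ ((L ⧸ P) →+ ZMod p) := AddMonoidHom.mk' (fun k => desc (b k)) (by
    intro k k'
    ext x
    simp only [AddMonoidHom.coe_comp, QuotientAddGroup.coe_mk', Function.comp_apply,
      AddMonoidHom.add_apply]
    rw [desc_mk, desc_mk, desc_mk, b_apply, b_apply, b_apply, map_add,
        LinearMap.add_apply, Int.cast_add])
  have hΨ₀ : P ≤ Ψ₀.ker := by
    rintro _ ⟨k, rfl⟩
    rw [AddMonoidHom.mem_ker, nsmulAddMonoidHom_apply, map_nsmul]
    ext x
    simp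
  let Ψ : (L ⧸ P) →+ ((L ⧸ P) →+ ZMod p) := QuotientAddGroup.lift P Ψ₀ hΨ₀
  have Ψ_mk : ∀ k x : L, Ψ (QuotientAddGroup.mk k) (QuotientAddGroup.mk x) =
      ((B k x : ℤ) : ZMod p) := fun k x => rfl
  have hinj : Function.Injective Ψ := by
    rw [injective_iff_map_eq_zero]
    intro v hv
    induction v using QuotientAddGroup.induction_on with
    | H k =>
      rw [QuotientAddGroup.eq_zero_iff]
      obtain ⟨k', hk'⟩ := hB k (fun y => by
        have := DFunLike.congr_fun hv (QuotientAddGroup.mk y)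
        rw [Ψ_mk, AddMonoidHom.zero_apply] at this
        exact (ZMod.intCast_zmod_eq_zero_iff_dvd _ _).mp this)
      exact ⟨k', hk'.symm⟩
  obtain ⟨v, hv⟩ := @Duality_surjective p _ (L ⧸ P) _ iM iF Ψ hinj (desc l)
  obtain ⟨k, rfl⟩ := QuotientAddGroup.mk_surjective v
  refine ⟨k, fun x => ?_⟩
  have := DFunLike.congr_fun hv (QuotientAddGroup.mk x)
  rw [Ψ_mk, desc_mk] at this
  exact this.symm

/-- Let `B`, `B'` be `ℤ`-bilinear forms on finitely generated groups `L`, `L'`, left nondegenerate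
modulo `p`, and `α : L → L'`, `β : L' → L` adjoint.  An element of `L` which is orthogonal modulo `p`
to the kernel of `α` modulo `p` lies in `β L' + p L`. -/
theorem exists_eq_add_of_orthogonal {L L' : Type*} [AddCommGroup L] [AddCommGroup L']
    [Module.Finite ℤ L] (p : ℕ) [Fact p.Prime]
    (B : L →ₗ[ℤ] L →ₗ[ℤ] ℤ) (B' : L' →ₗ[ℤ] L' →ₗ[ℤ] ℤ)
    (hB : ∀ x, (∀ y, (p : ℤ) ∣ B x y) → ∃ x', x = p • x')
    (hB' : ∀ x, (∀ y, (p : ℤ) ∣ B' x y) → ∃ x', x = p • x')
    (α : L →ₗ[ℤ] L') (β : L' →ₗ[ℤ] L) (hadj : ∀ x y, B' (α x) y = B x (β y))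
    (h : L) (hh : ∀ k : L, (∃ y', α k = p • y') → (p : ℤ) ∣ B k h) :
    ∃ (z : L') (w : L), h = β z + p • w := by
  by_contra hcon
  let R : AddSubgroup L := β.toAddMonoidHom.range ⊔ (nsmulAddMonoidHom (α := L) p).range
  have hR : ∀ x : L, p • x ∈ R := fun x => AddSubgroup.mem_sup_right ⟨x, rfl⟩
  have hβR : ∀ z : L', β z ∈ R := fun z => AddSubgroup.mem_sup_left ⟨z, rfl⟩
  have hhR : h ∉ R := by
    intro hmem
    obtain ⟨_, ⟨z, rfl⟩, _, ⟨w, rfl⟩, e⟩ := AddSubgroup.mem_sup.mp hmem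
    exact hcon ⟨z, w, e.symm⟩
  obtain ⟨l, hl, hlh⟩ := Duality_exists_functional p R hR hhR
  obtain ⟨k, hk⟩ := Duality_exists_repr p B hB l
  apply hlh
  rw [hk, ZMod.intCast_zmod_eq_zero_iff_dvd]
  apply hh k
  apply hB'
  intro y
  rw [hadj, ← ZMod.intCast_zmod_eq_zero_iff_dvd, ← hk]
  exact hl _ (hβR y)

end Fermat.Agent.S41.Abs
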