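import Mathlib

/-!
# S41, block G (abstract algebra), node G3: an injective operator on a finite group has finite order
(owner: helper188, proof: helper298)
-/

set_option autoImplicit false

namespace Fermat.Agent.S41.Abs

/-- An injective self-map of a finite set has finite order. -/
theorem FiniteOrder_iterate {V : Type*} (K : Set V) [Finite K] (f : V → V)
    (hmaps : Set.MapsTo f K K) (hinj : Set.InjOn f K) :
    ∃ n : ℕ, 0 < n ∧ ∀ v ∈ K, f^[n] v = v := by
  have hg : Function.Injective (hmaps.restrict f K K) := hmaps.restrict_inj.2 hinj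
  have hb : Function.Bijective (hmaps.restrict f K K) := Finite.injective_iff_bijective.1 hg
  let e : Equiv.Perm K := Equiv.ofBijective _ hb
  refine ⟨orderOf e, orderOf_pos e, fun v hv => ?_⟩
  have h1 : (e ^ orderOf e) ⟨v, hv⟩ = ⟨v, hv⟩ := by rw [pow_orderOf_eq_one]; rfl
  have h2 : ∀ (n : ℕ) (w : K), ((e ^ n) w : V) = f^[n] w := by
    intro n
    induction n with
    | zero => intro w; rfl
    | succ n ih =>
      intro w
      rw [pow_succ, Equiv.Perm.mul_apply, ih, Function.iterate_succ_apply]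
      rfl
  rw [← h2 _ ⟨v, hv⟩, h1]

/-- If `S` is injective on `K = ker (α mod p) ⊆ L / p L`, then `S ^ n = 1` on `K` for some
`n > 0`. -/
theorem exists_pow_sub_self_mem {L L' : Type*} [AddCommGroup L] [AddCommGroup L']
    [Module.Finite ℤ L] (p : ℕ) (hp : 0 < p) (α : L →ₗ[ℤ] L') (S : L →ₗ[ℤ] L) (S' : L' →ₗ[ℤ] L')
    (hαS : ∀ x, α (S x) = S' (α x))
    (hinj : ∀ x, (∃ y', α x = p • y') → (∃ x', S x = p • x') → ∃ x', x = p • x') :
    ∃ n : ℕ, 0 < n ∧ ∀ x, (∃ y', α x = p • y') → ∃ x', (S ^ n) x - x = p • x' := by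
  let P : Submodule ℤ L := LinearMap.range (p • (LinearMap.id : L →ₗ[ℤ] L))
  have hP : ∀ x, x ∈ P ↔ ∃ x', x = p • x' := by
    intro x
    constructor
    · rintro ⟨x', rfl⟩
      exact ⟨x', rfl⟩
    · rintro ⟨x', rfl⟩
      exact ⟨x', rfl⟩
  have hfin : Finite (L ⧸ P) := by
    apply Module.finite_of_fg_torsion
    intro v
    obtain ⟨x, rfl⟩ := P.mkQ_surjective v
    refine ⟨⟨(p : ℤ), mem_nonZeroDivisors_of_ne_zero (by exact_mod_cast hp.ne')⟩, ?_⟩
    show (p : ℤ) • P.mkQ x = 0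
    rw [← map_smul, Submodule.mkQ_apply, Submodule.Quotient.mk_eq_zero, hP]
    exact ⟨x, by rw [natCast_zsmul]⟩
  have hS : P ≤ P.comap S := by
    intro x hx
    obtain ⟨x', rfl⟩ := (hP x).1 hx
    rw [Submodule.mem_comap, hP]
    exact ⟨S x', map_nsmul S p x'⟩
  let f : (L ⧸ P) →ₗ[ℤ] (L ⧸ P) := P.mapQ P S hS
  have hf : ∀ x, f (P.mkQ x) = P.mkQ (S x) := fun x => rfl
  let K : Set (L ⧸ P) := {v | ∃ x, P.mkQ x = v ∧ ∃ y', α x = p • y'}
  have hmaps : Set.MapsTo f K K := by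
    rintro _ ⟨x, rfl, y', hy'⟩
    exact ⟨S x, (hf x).symm, S' y', by rw [hαS, hy', map_nsmul]⟩
  have hinjOn : Set.InjOn f K := by
    rintro _ ⟨x, rfl, y', hy'⟩ _ ⟨x₂, rfl, y₂', hy₂'⟩ h
    rw [hf, hf, Submodule.mkQ_apply, Submodule.mkQ_apply, Submodule.Quotient.eq, ← map_sub,
      hP] at h
    rw [Submodule.mkQ_apply, Submodule.mkQ_apply, Submodule.Quotient.eq, hP]
    exact hinj (x - x₂) ⟨y' - y₂', by rw [map_sub, hy', hy₂', smul_sub]⟩ h
  obtain ⟨n, hn, hfix⟩ := FiniteOrder_iterate K f hmaps hinjOn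
  refine ⟨n, hn, fun x hx => ?_⟩
  have h1 : f^[n] (P.mkQ x) = P.mkQ x := hfix _ ⟨x, rfl, hx⟩
  have hsemi : Function.Semiconj P.mkQ S f := fun x => (hf x).symm
  have h2 : P.mkQ (S^[n] x) = f^[n] (P.mkQ x) := hsemi.iterate_right n x
  rw [← h2, Submodule.mkQ_apply, Submodule.mkQ_apply, Submodule.Quotient.eq, hP] at h1
  rw [Module.End.pow_apply]
  exact h1

end Fermat.Agent.S41.Abs
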