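import Fermat.Agent.S41.Abs.Approx
import Fermat.Agent.S41.Abs.Duality
import Fermat.Agent.S41.Abs.FiniteOrder

/-!
# S41, block G (abstract algebra): the abstract form of Ribet's argument  (owner: helper188)
-/

set_option autoImplicit false

namespace Fermat.Agent.S41.Abs

section aux

variable {L L' : Type*} [AddCommGroup L] [AddCommGroup L']

theorem Total_pow_comm (f : L →ₗ[ℤ] L') (s : L →ₗ[ℤ] L) (s' : L' →ₗ[ℤ] L')
    (h : ∀ x, f (s x) = s' (f x)) (n : ℕ) (x : L) : f ((s ^ n) x) = (s' ^ n) (f x) := by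
  induction n generalizing x with
  | zero => simp
  | succ n ih => rw [pow_succ, pow_succ, Module.End.mul_apply, Module.End.mul_apply, ih, h]

theorem Total_pow_adj (B : L →ₗ[ℤ] L →ₗ[ℤ] ℤ) (s : L →ₗ[ℤ] L)
    (h : ∀ x y, B (s x) y = B x (s y)) (n : ℕ) (x y : L) : B ((s ^ n) x) y = B x ((s ^ n) y) := by
  induction n generalizing x y with
  | zero => simp
  | succ n ih =>
    rw [pow_succ, Module.End.mul_apply, ih, h, ← Module.End.mul_apply, ← pow_succ', pow_succ]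

theorem Total_pow_mem (p : ℕ) (s : L →ₗ[ℤ] L) (n : ℕ) {x : L} (hx : ∃ x', x = p • x') :
    ∃ x', (s ^ n) x = p • x' := by
  obtain ⟨x', rfl⟩ := hx
  exact ⟨(s ^ n) x', by rw [map_nsmul]⟩

/-- if `t v ≡ - v` then `t ^ k v ≡ (-1) ^ k v`. -/
theorem Total_pow_neg (p : ℕ) (t : L →ₗ[ℤ] L) {v : L} (hv : ∃ x', t v + v = p • x') (k : ℕ) :
    ∃ x', (t ^ k) v - ((-1 : ℤ) ^ k) • v = p • x' := by
  induction k with
  | zero => exact ⟨0, by simp⟩
  | succ k ih =>
    obtain ⟨a, ha⟩ := ih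
    obtain ⟨b, hb⟩ := hv
    refine ⟨t a + ((-1 : ℤ) ^ k) • b, ?_⟩
    have h1 : (t ^ k) v = ((-1 : ℤ) ^ k) • v + p • a := by rw [← ha]; abel
    have h2 : t v = p • b - v := by rw [← hb]; abel
    rw [pow_succ', Module.End.mul_apply, h1, map_add, map_zsmul, map_nsmul, h2, pow_succ]
    simp only [smul_sub, smul_add, mul_smul, neg_smul, one_smul, smul_neg]
    rw [smul_comm ((-1 : ℤ) ^ k) p b]
    abel

end aux

/-- **The abstract form of Ribet's argument.** -/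
theorem ribet_abstract {L L' : Type*} [AddCommGroup L] [AddCommGroup L'] [Module.Finite ℤ L]
    (p : ℕ) [Fact p.Prime]
    (B : L →ₗ[ℤ] L →ₗ[ℤ] ℤ) (B' : L' →ₗ[ℤ] L' →ₗ[ℤ] ℤ)
    (hB : ∀ x, (∀ y, (p : ℤ) ∣ B x y) → ∃ x', x = p • x')
    (hB' : ∀ x, (∀ y, (p : ℤ) ∣ B' x y) → ∃ x', x = p • x')
    (α : L →ₗ[ℤ] L') (β : L' →ₗ[ℤ] L) (hadj : ∀ x y, B' (α x) y = B x (β y))
    (T : L →ₗ[ℤ] L) (T' : L' →ₗ[ℤ] L') (hαT : ∀ x, α (T x) = T' (α x))
    (hβT : ∀ y, β (T' y) = T (β y)) (hTadj : ∀ x y, B (T x) y = B x (T y)) (a : ℤ)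
    (hIh : ∀ x, (∃ y', α x = p • y') → (∃ x', T x - a • x = p • x') → ∃ x', x = p • x')
    (v : L) (hv : ∃ x', T v - a • v = p • x') (hβαv : ∃ x', β (α v) = p • x') :
    ∃ b : L', β b = 0 ∧ ∃ y', b - α v = p • y' := by
  have hp : 0 < p := (Fact.out : p.Prime).pos
  -- the operators `S = T - a`
  set S : L →ₗ[ℤ] L := T - a • LinearMap.id with hS
  set S' : L' →ₗ[ℤ] L' := T' - a • LinearMap.id with hS'
  have hSx : ∀ x, S x = T x - a • x := fun x => by simp [hS]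
  have hS'x : ∀ x, S' x = T' x - a • x := fun x => by simp [hS']
  have hαS : ∀ x, α (S x) = S' (α x) := fun x => by
    rw [hSx, hS'x, map_sub, map_zsmul, hαT]
  have hβS : ∀ y, β (S' y) = S (β y) := fun y => by
    rw [hSx, hS'x, map_sub, map_zsmul, hβT]
  have hSadj : ∀ x y, B (S x) y = B x (S y) := fun x y => by
    rw [hSx, hSx, map_sub, map_sub, LinearMap.sub_apply, hTadj, map_zsmul, map_zsmul,
      LinearMap.smul_apply]
  obtain ⟨n, hn, hord⟩ := exists_pow_sub_self_mem p hp α S S' hαS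
    (fun x h1 h2 => hIh x h1 (by simpa [hSx] using h2))
  -- the operators `t = S ^ n - 1`
  set t : L →ₗ[ℤ] L := S ^ n - 1 with ht
  set t' : L' →ₗ[ℤ] L' := S' ^ n - 1 with ht'
  have htx : ∀ x, t x = (S ^ n) x - x := fun x => by simp [ht]
  have ht'x : ∀ x, t' x = (S' ^ n) x - x := fun x => by simp [ht']
  have hαt : ∀ x, α (t x) = t' (α x) := fun x => by
    rw [htx, ht'x, map_sub, Total_pow_comm α S S' hαS]
  have hβt : ∀ y, β (t' y) = t (β y) := fun y => by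
    rw [htx, ht'x, map_sub, Total_pow_comm β S' S hβS]
  have htadj : ∀ x y, B (t x) y = B x (t y) := fun x y => by
    rw [htx, htx, map_sub, map_sub, LinearMap.sub_apply, Total_pow_adj B S hSadj]
  -- duality
  have hrange : ∀ x, ∃ (z : L') (w : L), t x = β z + p • w := by
    intro x
    refine exists_eq_add_of_orthogonal p B B' hB hB' α β hadj (t x) ?_
    intro k hk
    obtain ⟨x', hx'⟩ := hord k hk
    rw [← htadj, htx, hx', map_nsmul, LinearMap.smul_apply]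
    exact ⟨B x' x, by simp⟩
  obtain ⟨x₁, hx₁⟩ := hβαv
  obtain ⟨k, z, hkz⟩ := exists_pow_sub_mem_ker p β t t' hβt hrange (α v) x₁ hx₁
  -- `t v ≡ - v`
  have htv : ∃ x', t v + v = p • x' := by
    obtain ⟨x', hx'⟩ := hv
    obtain ⟨m, rfl⟩ : ∃ m, n = m + 1 := ⟨n - 1, by omega⟩
    refine ⟨(S ^ m) x', ?_⟩
    rw [htx, sub_add_cancel, pow_succ, Module.End.mul_apply, hSx, hx', map_nsmul]
  obtain ⟨u, hu⟩ := Total_pow_neg p t htv k
  -- the element
  refine ⟨((-1 : ℤ) ^ k) • ((t' ^ k) (α v) - p • z), by rw [map_zsmul, hkz, smul_zero], ?_⟩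
  refine ⟨((-1 : ℤ) ^ k) • (α u - z), ?_⟩
  have h1 : (t' ^ k) (α v) = α ((t ^ k) v) := (Total_pow_comm α t t' hαt k v).symm
  have h2 : (t ^ k) v = ((-1 : ℤ) ^ k) • v + p • u := by rw [← hu]; abel
  have h3 : ((-1 : ℤ) ^ k) • ((-1 : ℤ) ^ k) • α v = α v := by
    rw [smul_smul, ← pow_add, ← two_mul, pow_mul]; simp
  rw [h1, h2, map_add, map_zsmul, map_nsmul, add_sub_assoc, smul_add, h3, add_sub_cancel_left,
    ← smul_sub, smul_comm]

end Fermat.Agent.S41.Abs
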